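/-
P-ES / ES-C (helper49), row 308 "GEN-FF": the prelude's `ModularCurve.HeckeInputsAlong L N ℓ`
(the hypothesis under which the prelude's Hecke operator `heckeOperatorAlong` is the genuine
correspondence `α_* β^*` and not `0`) reduced to its purely modular inputs:

* the two degeneracy maps `α, β : F_N → F_{Nℓ}` are finite, and
* `F_{Nℓ}` has principal divisors (`HasPrincipalDivisors`).

The fundamental identity along `β` and the norm formula along `α` are general facts
(`Fermat.Agent.H49.ES.FunctionFieldInputs`).
-/
import Fermat.Agent.H49.ES.FunctionFieldInputs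
import Fermat.Prelude.Def_ModularCurve_HeckeOperatorTotal

set_option autoImplicit false
set_option maxSynthPendingDepth 3

noncomputable section

namespace Fermat.Agent.H49

open AlgebraicCurve ModularCurve

section

variable {K F F' : Type*} [Field K] [Field F] [Field F'] [Algebra K F] [Algebra K F']

/-- A finite homomorphism of fields is integral. -/
theorem isIntegral_of_finiteAlong (φ : F →ₐ[K] F') (hfin : FiniteAlong K φ) :
    φ.toRingHom.IsIntegral := by
  letI := algebraAlong φ
  haveI : Module.Finite F F' := hfin
  intro x
  exact Algebra.IsIntegral.isIntegral (R := F) x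

end

variable (L : Type*) [Field L] [Algebra ℚ L] (N ℓ : ℕ) [NeZero N] [NeZero ℓ]

/-- `HeckeInputsAlong` from finiteness of the two degeneracy maps and principal divisors. -/
theorem heckeInputsAlong_of_finite
    [HasPrincipalDivisors L (laurentBaseChange L (modularFunctionFieldFull (N * ℓ)))]
    (hfinα : FiniteAlong L (heckeAlphaBar L N ℓ))
    (hfinβ : FiniteAlong L (heckeBetaBar L N ℓ)) : HeckeInputsAlong L N ℓ := by
  haveI : CharZero L := algebraRat.charZero L
  haveI : CharZero (laurentBaseChange L (modularFunctionFieldFull N)) :=
    charZero_of_injective_algebraMap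
      (FaithfulSMul.algebraMap_injective L (laurentBaseChange L (modularFunctionFieldFull N)))
  have hα : HeckeAlphaBarIntegral L N ℓ := isIntegral_of_finiteAlong _ hfinα
  have hβ : HeckeBetaBarIntegral L N ℓ := isIntegral_of_finiteAlong _ hfinβ
  exact heckeInputsAlong_intro hα hβ (fundamentalIdentityAlong_of_finite _ hβ hfinβ) hfinα
    (normFormulaAlong_of_finite _ hfinα)

end Fermat.Agent.H49
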