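/-
P-ES / ES-C (helper49): adapters of `Fermat.Agent.H49.ES.FunctionFieldInputs` to the ES-C
interface statements of helper21 (`Fermat.Agent.H21.EsC.Interfaces`), and the UNCONDITIONAL
`HeckeInputsStatement L` for every algebraically closed field `L` of characteristic zero
(in particular `L = AlgebraicClosure ℚ` and `L = ℂ`): the prelude's Hecke operators on `J₀(N)`
are the genuine correspondences `α_* β^*`.
-/
import Fermat.Agent.H49.ES.HeckeInputs
import Fermat.Agent.H21.EsC.Interfaces
import Fermat.Agent.H54.EsC.DegFinite
import Fermat.Agent.H93.EsC.PD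

set_option autoImplicit false
set_option maxSynthPendingDepth 3

noncomputable section

namespace Fermat.Agent.H49

open AlgebraicCurve ModularCurve

/-- **ES-C1-REL-FI** (row 325), from the general theorem `fundamentalIdentity`. -/
theorem relFundamentalIdentityStatement : Fermat.Agent.H21.EsC.RelFundamentalIdentityStatement := by
  intro K F F' _ _ _ _ _ _ _ _ _ _ _ _
  haveI : CharZero F := charZero_of_injective_algebraMap (algebraMap K F).injective
  exact fundamentalIdentity K F F'

/-- **ES-C1-REL-NF** (row 326), from the general theorem `pushforwardNormFormula`. -/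
theorem relNormFormulaStatement : Fermat.Agent.H21.EsC.RelNormFormulaStatement := by
  intro K F F' _ _ _ _ _ _ _ _ _ _ _ _
  haveI : CharZero F := charZero_of_injective_algebraMap (algebraMap K F).injective
  exact pushforwardNormFormula K F F'

/-- **ES-C1** from finiteness of the degeneracy maps and principal divisors (any field `L` of
characteristic zero, not necessarily algebraically closed). -/
theorem heckeInputsStatement_of_parts (L : Type) [Field L] [Algebra ℚ L]
    (hfin : Fermat.Agent.H21.EsC.DegeneracyFiniteStatement L)
    (hPD : Fermat.Agent.H21.EsC.PrincipalDivisorsStatement L) :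
    Fermat.Agent.H21.EsC.HeckeInputsStatement L := by
  intro N ℓ _ _ hℓ
  haveI := hPD (N * ℓ)
  exact heckeInputsAlong_of_finite L N ℓ (hfin N ℓ hℓ).1 (hfin N ℓ hℓ).2

/-- **ES-C1, unconditional**: for every algebraically closed field `L` of characteristic zero
the inputs of the prelude Hecke operators hold at every prime. -/
theorem heckeInputsStatement (L : Type) [Field L] [Algebra ℚ L] [IsAlgClosed L] :
    Fermat.Agent.H21.EsC.HeckeInputsStatement L := by
  haveI : CharZero L := algebraRat.charZero L
  exact heckeInputsStatement_of_parts L (Fermat.Agent.H54.degeneracyFinite L)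
    (Fermat.Agent.H93.esc_pd_of_isFunctionField L (Fermat.Agent.H54.isFunctionField L))

/-- The prelude Hecke operator on `J₀(N)` (over `ℚ̄`) is the genuine correspondence. -/
theorem heckeInputsAlong_qbar (N ℓ : ℕ) [NeZero N] [NeZero ℓ] (hℓ : ℓ.Prime) :
    HeckeInputsAlong (AlgebraicClosure ℚ) N ℓ :=
  heckeInputsStatement (AlgebraicClosure ℚ) N ℓ hℓ

end Fermat.Agent.H49
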