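/-
P-ES (helper49), rows 435 (J-GAL) and 380 (Q-ES-3): the prelude Hecke operators on `J₀(N)`
commute with the Galois action, for ALL points (torsion is not needed) and ALL primes `ℓ`
(`ℓ ∤ N` is not needed), over any coefficient field `L`.

Proof: the degeneracy maps `α` (inclusion) and `β` (`q ↦ q^ℓ`) commute with the coefficientwise
action of `σ`, so the correspondence `α_* β^*` is equivariant
(`Fermat.Agent.H49.pic0_correspondence_smul_of_intertwines`).
-/
import Fermat.Agent.H49.ES.GalEquivariance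
import Fermat.Agent.H28.ES.Interface3
import Fermat.Agent.H36.ESE.TorsionInterfaces

set_option autoImplicit false
set_option maxSynthPendingDepth 3

noncomputable section

namespace Fermat.Agent.H49

open AlgebraicCurve ModularCurve

section Coeff

theorem coeffMap_qExpand_galHecke {R S : Type*} [CommRing R] [CommRing S] (f : R →+* S) (n : ℕ)
    [NeZero n] (x : LaurentSeries R) :
    coeffMap f (qExpand R n x) = qExpand S n (coeffMap f x) := by
  ext k
  by_cases hk : (n : ℤ) ∣ k
  · obtain ⟨m, rfl⟩ := hk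
    rw [coeffMap_coeff, qExpand_coeff_mul, qExpand_coeff_mul, coeffMap_coeff]
  · rw [coeffMap_coeff, qExpand_coeff_of_not_dvd n _ hk, qExpand_coeff_of_not_dvd n _ hk,
      map_zero]

end Coeff

variable (L : Type*) [Field L] [Algebra ℚ L] (N ℓ : ℕ) [NeZero N] [NeZero ℓ]

/-- The degeneracy map `α` commutes with the coefficientwise Galois action. -/
theorem intertwines_heckeAlphaBar (σ : L ≃ₐ[ℚ] L) :
    SemilinearAut.IntertwinesAlong (heckeAlphaBar L N ℓ).toRingHom
      (arithmeticGalois (modularFunctionFieldFull N) σ)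
      (arithmeticGalois (modularFunctionFieldFull (N * ℓ)) σ) := by
  intro x
  apply Subtype.ext
  rw [coe_arithmeticGalois_smul]
  show coeffMap (σ : L →+* L) ((heckeAlphaBar L N ℓ x : _) : LaurentSeries L)
    = ((heckeAlphaBar L N ℓ (arithmeticGalois (modularFunctionFieldFull N) σ • x) : _) :
        LaurentSeries L)
  rw [coe_heckeAlphaBar, coe_heckeAlphaBar, coe_arithmeticGalois_smul]

/-- The degeneracy map `β` (`q ↦ q^ℓ`) commutes with the coefficientwise Galois action. -/
theorem intertwines_heckeBetaBar (σ : L ≃ₐ[ℚ] L) :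
    SemilinearAut.IntertwinesAlong (heckeBetaBar L N ℓ).toRingHom
      (arithmeticGalois (modularFunctionFieldFull N) σ)
      (arithmeticGalois (modularFunctionFieldFull (N * ℓ)) σ) := by
  intro x
  apply Subtype.ext
  rw [coe_arithmeticGalois_smul]
  show coeffMap (σ : L →+* L) ((heckeBetaBar L N ℓ x : _) : LaurentSeries L)
    = ((heckeBetaBar L N ℓ (arithmeticGalois (modularFunctionFieldFull N) σ • x) : _) :
        LaurentSeries L)
  rw [coe_heckeBetaBar, coe_heckeBetaBar, coe_arithmeticGalois_smul, coeffMap_qExpand_galHecke]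

/-- **The prelude Hecke operator commutes with the Galois action** (all points, all `ℓ`). -/
theorem heckeOperatorAlong_galois (σ : L ≃ₐ[ℚ] L)
    (x : Pic0 L (laurentBaseChange L (modularFunctionFieldFull N))) :
    heckeOperatorAlong L N ℓ (σ • x) = σ • heckeOperatorAlong L N ℓ x := by
  by_cases h : HeckeInputsAlong L N ℓ
  · obtain ⟨hα, hβ, hP, hfin, hFI, hN⟩ := h
    haveI := hP
    rw [heckeOperatorAlong_eq hα hβ hFI hfin hN, galois_smul_pic0_def, galois_smul_pic0_def]
    exact pic0_correspondence_smul_of_intertwines _ _ hβ hα hFI hfin hN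
      (intertwines_heckeBetaBar L N ℓ σ) (intertwines_heckeAlphaBar L N ℓ σ) x
  · rw [heckeOperatorAlong_of_not h, AddMonoidHom.zero_apply, AddMonoidHom.zero_apply,
      smul_zero]

/-- `T_ℓ` commutes with `G_ℚ` on `J₀(N)(ℚ̄)`. -/
theorem heckeOperatorBar_galois (ℓ' : Nat.Primes)
    (σ : AlgebraicClosure ℚ ≃ₐ[ℚ] AlgebraicClosure ℚ) (x : JZero N) :
    heckeOperatorBar N ℓ' (σ • x) = σ • heckeOperatorBar N ℓ' x := by
  haveI : NeZero (ℓ' : ℕ) := ⟨ℓ'.2.ne_zero⟩
  rw [heckeOperatorBar_apply, heckeOperatorBar_apply]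
  exact heckeOperatorAlong_galois (AlgebraicClosure ℚ) N ℓ' σ x

/-- **J-GAL** (row 435). -/
theorem jGalHeckeStatement : Fermat.Agent.H28.JGalHeckeStatement := by
  intro N _ ℓ' _ σ x _
  exact heckeOperatorBar_galois N ℓ' σ x

/-- **Q-ES-3** (row 380). -/
theorem heckeGaloisTorsionStatement (N : ℕ) [NeZero N] :
    Fermat.Agent.H36.HeckeGaloisTorsionStatement N := by
  intro ℓ' hℓ _ σ n _ x _
  exact heckeOperatorBar_galois N ⟨ℓ', hℓ⟩ σ x

end Fermat.Agent.H49
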