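import Fermat.Agent.H23.EsA.DatumC
import Fermat.Agent.H85.LocalCounting

/-!
# P-ES / ES-A / PL-4: refined local counting (helper49)

`Fermat.Agent.H49.localCountingRefined : Fermat.Agent.H23.EsA.LocalCountingRefinedStatement`:
for a local uniformization datum `L` for the zeros of `y` (all places of degree one, fundamental
identity for `y`), **every** index `i` induces a place `v` (through `σ i` and `val`) with
`val (σ i f) = m · ord_v f`, `m · ord_v y = e₀`, and the `ε`-cycle of `i` has length exactly the
ramification index `ord_v y`:  `(ε ^ k) i = i ↔ ord_v y ∣ k`.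

The proof follows `Fermat.Agent.H85.localCounting` (GEN-5): the fibre of `i ↦ (place induced by
σ i)` over `v` has exactly `ord_v y` elements (two-sided counting), and it consists of the
`ε`-iterates `ε ^ a i`, `a < ord_v y`, which are pairwise distinct because every period of `i` is
divisible by `ord_v y`; hence `ε ^ (ord_v y)` fixes `i`.
-/

set_option autoImplicit false

namespace Fermat.Agent.H49

open AlgebraicCurve

theorem localCountingRefined : Fermat.Agent.H23.EsA.LocalCountingRefinedStatement := by
  intro K F _ _ _ _ _ y L hdeg hfin hsum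
  classical
  have he₀ : (0 : ℤ) < L.e₀ := by exact_mod_cast L.e₀_pos
  have hσy0 : ∀ i : L.I, L.σ i y ≠ 0 := by
    intro i h0
    have := L.val_y i
    rw [h0, AddValuation.map_zero] at this
    exact WithTop.top_ne_coe this
  have hy0 : ∀ _ : L.I, y ≠ 0 := by
    intro i h0
    exact hσy0 i ((congrArg (L.σ i) h0).trans (map_zero _))
  have hex : ∀ i : L.I, ∃ (v : Place K F) (m : ℕ), 0 < m ∧
      ∀ f : F, f ≠ 0 → L.val (L.σ i f) = (((m : ℤ) * v.ord f : ℤ) : WithTop ℤ) := by
    intro i
    refine Fermat.Agent.H49.inducedPlace K F L.M L.val (L.σ i) (L.val_const i) ⟨y, hy0 i, ?_⟩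
    rw [L.val_y i]
    intro h0
    have h1 : ((L.e₀ : ℤ) : WithTop ℤ) = ((0 : ℤ) : WithTop ℤ) := h0
    have := WithTop.coe_injective h1
    omega
  choose pl mu hmu hval using hex
  have hmu' : ∀ i, (0 : ℤ) < mu i := fun i => by exact_mod_cast hmu i
  have hmul : ∀ i, (mu i : ℤ) * (pl i).ord y = L.e₀ := by
    intro i
    have h1 := hval i y (hy0 i)
    rw [L.val_y i] at h1
    exact (WithTop.coe_injective h1).symm
  have hpos : ∀ i, 0 < (pl i).ord y := by
    intro i
    have h1 := hmul i
    have h3 := hmu' i
    by_contra hneg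
    rw [not_lt] at hneg
    nlinarith
  -- fibre bound
  have hfib : ∀ v : Place K F, 0 < v.ord y →
      ((Finset.univ.filter (fun i => pl i = v)).card : ℤ) ≤ v.ord y := by
    intro v hv
    rcases (Finset.univ.filter (fun i => pl i = v)).eq_empty_or_nonempty with h | ⟨i₀, hi₀⟩
    · rw [h]
      simpa using hv.le
    · have hi₀' : pl i₀ = v := (Finset.mem_filter.mp hi₀).2
      have hmueq : ∀ i, pl i = v → (mu i : ℤ) = mu i₀ := by
        intro i hi
        have h1 := hmul i
        have h2 := hmul i₀
        rw [hi] at h1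
        rw [hi₀'] at h2
        have : (mu i : ℤ) * v.ord y = mu i₀ * v.ord y := by rw [h1, h2]
        exact mul_right_cancel₀ hv.ne' this
      have := Fermat.Agent.H85.fibre_card_le v (hdeg v) L.σ L.σ_inj L.σ_const L.val_const y
        L.σ_y (v.ord y).toNat (by omega) (Int.toNat_of_nonneg hv.le).symm (mu i₀ : ℤ)
        (hmu' i₀) (Finset.univ.filter (fun i => pl i = v)) (by
          intro i hi f hf
          have hi' := (Finset.mem_filter.mp hi).2
          rw [hval i f hf, hmueq i hi', hi'])
      omega
  -- counting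
  have hcard : (Fintype.card L.I : ℤ)
      = ∑ v ∈ hfin.toFinset, ((Finset.univ.filter (fun i => pl i = v)).card : ℤ) := by
    have := Finset.card_eq_sum_card_fiberwise (s := (Finset.univ : Finset L.I))
      (t := hfin.toFinset) (f := pl) (fun i _ => by simpa using hpos i)
    rw [← Finset.card_univ, this]
    push_cast
    rfl
  have hsum' : ∑ v ∈ hfin.toFinset, v.ord y = (Fintype.card L.I : ℤ) := by
    rw [← finsum_mem_eq_finite_toFinset_sum]
    exact hsum
  have heq : ∀ v : Place K F, 0 < v.ord y →
      ((Finset.univ.filter (fun i => pl i = v)).card : ℤ) = v.ord y := by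
    have h0 : ∑ v ∈ hfin.toFinset,
        (v.ord y - ((Finset.univ.filter (fun i => pl i = v)).card : ℤ)) = 0 := by
      rw [Finset.sum_sub_distrib, hsum', ← hcard, sub_self]
    have h1 := (Finset.sum_eq_zero_iff_of_nonneg (fun v hv => by
        have := hfib v (by simpa using hv)
        omega)).mp h0
    intro v hv
    have := h1 v (by simpa using hv)
    omega
  -- invariance of the induced place under ε
  have hinv : ∀ i, pl (L.ε i) = pl i := by
    intro i
    symm
    apply Fermat.Agent.H85.place_ext_of_ord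
    intro f hf
    rcases eq_or_ne f 0 with rfl | hf0
    · rw [Place.ord_zero]
    · have h1 := hval (L.ε i) f hf0
      rw [L.val_ε i f, hval i f hf0] at h1
      have h2 := WithTop.coe_injective h1
      have h3 := hmu' i
      have h4 := hmu' (L.ε i)
      by_contra hneg
      rw [not_le] at hneg
      nlinarith
  have hinvpow : ∀ (n : ℕ) i, pl ((L.ε ^ n) i) = pl i := by
    intro n
    induction n with
    | zero => intro i; simp
    | succ n ih =>
      intro i
      rw [pow_succ', Equiv.Perm.mul_apply, hinv, ih]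
  -- periods are divisible by the ramification index
  have hper : ∀ i (k : ℕ), (L.ε ^ k) i = i → ((pl i).ord y) ∣ (k : ℤ) := by
    intro i k hk
    obtain ⟨π, hπ⟩ := Fermat.Agent.H85.exists_ord_eq_one (pl i)
    have hπ0 : π ≠ 0 :=
      Fermat.Agent.H85.ne_zero_of_ord_ne_zero (pl i) (by rw [hπ]; exact one_ne_zero)
    obtain ⟨m', hm'⟩ := L.val_dvd i k hk π hπ0
    rw [hval i π hπ0, hπ, mul_one] at hm'
    have h1 : (mu i : ℤ) = ((L.e₀ / Nat.gcd L.e₀ k : ℕ) : ℤ) * m' := WithTop.coe_injective hm'
    have hg : ((L.e₀ / Nat.gcd L.e₀ k : ℕ) : ℤ) * (Nat.gcd L.e₀ k : ℤ) = L.e₀ := by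
      exact_mod_cast Nat.div_mul_cancel (Nat.gcd_dvd_left L.e₀ k)
    have hq0 : ((L.e₀ / Nat.gcd L.e₀ k : ℕ) : ℤ) ≠ 0 := by
      intro h0
      rw [h0, zero_mul] at hg
      omega
    have h2 := hmul i
    have h3 : (Nat.gcd L.e₀ k : ℤ) = m' * (pl i).ord y := by
      apply mul_left_cancel₀ hq0
      rw [hg, ← h2, h1]
      ring
    have h4 : (pl i).ord y ∣ (Nat.gcd L.e₀ k : ℤ) := ⟨m', by rw [h3]; ring⟩
    exact h4.trans (by exact_mod_cast Nat.gcd_dvd_right L.e₀ k)
  -- the first `e` iterates of `i` are pairwise distinct and exhaust the fibre of `pl i`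
  have hinj : ∀ i, Set.InjOn (fun a : ℕ => (L.ε ^ a) i)
      (Finset.range ((pl i).ord y).toNat : Set ℕ) := by
    intro i a ha b hb hab
    have hepos : 0 < (pl i).ord y := hpos i
    have ha' : a < ((pl i).ord y).toNat := by simpa using ha
    have hb' : b < ((pl i).ord y).toNat := by simpa using hb
    have hab' : (L.ε ^ a) i = (L.ε ^ b) i := hab
    rcases le_total a b with hle | hle
    · have h1 := Fermat.Agent.H85.pow_sub_apply_eq_self L.ε i hle hab'
      have h2 := hper i (b - a) h1
      by_contra hne
      have h3 : (0 : ℤ) < ((b - a : ℕ) : ℤ) := by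
        have : 0 < b - a := by omega
        exact_mod_cast this
      have := Int.le_of_dvd h3 h2
      omega
    · have h1 := Fermat.Agent.H85.pow_sub_apply_eq_self L.ε i hle hab'.symm
      have h2 := hper i (a - b) h1
      by_contra hne
      have h3 : (0 : ℤ) < ((a - b : ℕ) : ℤ) := by
        have : 0 < a - b := by omega
        exact_mod_cast this
      have := Int.le_of_dvd h3 h2
      omega
  have himg : ∀ i, (Finset.range ((pl i).ord y).toNat).image (fun a : ℕ => (L.ε ^ a) i)
      = Finset.univ.filter (fun i' => pl i' = pl i) := by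
    intro i
    apply Finset.eq_of_subset_of_card_le
    · intro x hx
      obtain ⟨a, _, rfl⟩ := Finset.mem_image.mp hx
      simp [hinvpow a i]
    · rw [Finset.card_image_of_injOn (hinj i), Finset.card_range]
      have := heq (pl i) (hpos i)
      omega
  -- the ramification index is a period
  have hfix : ∀ i, (L.ε ^ ((pl i).ord y).toNat) i = i := by
    intro i
    have hepos : 0 < (pl i).ord y := hpos i
    have hmem : (L.ε ^ ((pl i).ord y).toNat) i
        ∈ Finset.univ.filter (fun i' => pl i' = pl i) := by
      simp [hinvpow _ i]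
    rw [← himg i] at hmem
    obtain ⟨a, ha, hae⟩ := Finset.mem_image.mp hmem
    have ha' : a < ((pl i).ord y).toNat := by simpa using ha
    have hae' : (L.ε ^ a) i = (L.ε ^ ((pl i).ord y).toNat) i := hae
    have h1 := Fermat.Agent.H85.pow_sub_apply_eq_self L.ε i ha'.le hae'
    have h2 := hper i (((pl i).ord y).toNat - a) h1
    have h3 : (0 : ℤ) < ((((pl i).ord y).toNat - a : ℕ) : ℤ) := by
      have : 0 < ((pl i).ord y).toNat - a := by omega
      exact_mod_cast this
    have h4 := Int.le_of_dvd h3 h2
    have h5 : a = 0 := by omega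
    rw [h5, Nat.sub_zero] at h1
    exact h1
  intro i
  refine ⟨pl i, mu i, hpos i, hmu i, hval i, hmul i, fun k => ⟨hper i k, ?_⟩⟩
  rintro ⟨c, hc⟩
  have hepos : 0 < (pl i).ord y := hpos i
  have hc0 : 0 ≤ c := by
    by_contra hneg
    rw [not_le] at hneg
    have : (0 : ℤ) ≤ (k : ℤ) := Int.natCast_nonneg k
    nlinarith
  have hk : k = ((pl i).ord y).toNat * c.toNat := by
    have h1 : ((((pl i).ord y).toNat * c.toNat : ℕ) : ℤ) = (k : ℤ) := by
      push_cast
      rw [Int.toNat_of_nonneg hepos.le, Int.toNat_of_nonneg hc0, hc]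
    exact_mod_cast h1.symm
  rw [hk, pow_mul]
  have hpowfix : ∀ n : ℕ, ((L.ε ^ ((pl i).ord y).toNat) ^ n) i = i := by
    intro n
    induction n with
    | zero => simp
    | succ n ih => rw [pow_succ, Equiv.Perm.mul_apply, hfix i, ih]
  exact hpowfix _

end Fermat.Agent.H49
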