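/-
P-ES (helper49), rows 435 (J-GAL) / 380 (Q-ES-3), general part: a correspondence
`ψ_* φ^*` between function fields commutes with every pair of semilinear automorphisms
`(g, g')` of `(F, F')` intertwined by `φ` and `ψ`.

Prelude only (`Def_AlgebraicCurve_Correspondence`).
-/
import Fermat.Prelude.Def_AlgebraicCurve_Correspondence

set_option autoImplicit false
set_option maxSynthPendingDepth 3

noncomputable section

namespace Fermat.Agent.H49

open AlgebraicCurve
open scoped Pointwise

section Equivariance

variable {K F F' : Type*} [Field K] [Field F] [Field F'] [Algebra K F] [Algebra K F']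
variable (ι : F →ₐ[K] F') (hι : ι.toRingHom.IsIntegral)
variable {g : SemilinearAut K F} {g' : SemilinearAut K F'}

/-- The order at `g • v` in terms of the order at `v`. -/
theorem semilinear_ord_smul_eq (g : SemilinearAut K F) (v : Place K F) (x : F) :
    (g • v).ord x = v.ord (g⁻¹ • x) := by
  have h := SemilinearAut.ord_smul g v (g⁻¹ • x)
  rwa [smul_inv_smul] at h

/-- Restriction of places along `ι` is equivariant for an intertwined pair. -/
theorem restrictAlong_smul_of_intertwines
    (h : SemilinearAut.IntertwinesAlong ι.toRingHom g g') (w : Place K F') :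
    (g' • w).restrictAlong ι hι = g • w.restrictAlong ι hι := by
  apply Place.ext
  ext f
  show ι f ∈ (g' • w.toValuationSubring : ValuationSubring F')
    ↔ f ∈ (g • (w.restrictAlong ι hι).toValuationSubring : ValuationSubring F)
  rw [ValuationSubring.mem_pointwise_smul_iff_inv_smul_mem,
    ValuationSubring.mem_pointwise_smul_iff_inv_smul_mem]
  have h1 : g'⁻¹ • ι f = ι (g⁻¹ • f) := h.inv f
  rw [h1]
  exact Iff.rfl

/-- Ramification indices along `ι` are invariant under an intertwined pair. -/
theorem ramificationIndexAlong_smul_of_intertwines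
    (h : SemilinearAut.IntertwinesAlong ι.toRingHom g g') (w : Place K F') :
    (g' • w).ramificationIndexAlong ι = w.ramificationIndexAlong ι := by
  have hord : ∀ f : F, (g' • w).ord (ι f) = w.ord (ι (g⁻¹ • f)) := by
    intro f
    rw [semilinear_ord_smul_eq]
    exact congrArg w.ord (h.inv f)
  have hord' : ∀ f : F, w.ord (ι f) = (g' • w).ord (ι (g • f)) := by
    intro f
    rw [hord, inv_smul_smul]
  show sInf {n : ℕ | 0 < n ∧ ∃ f : F, f ≠ 0 ∧ (g' • w).ord (ι f) = n}
    = sInf {n : ℕ | 0 < n ∧ ∃ f : F, f ≠ 0 ∧ w.ord (ι f) = n}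
  congr 1
  ext n
  show (0 < n ∧ ∃ f : F, f ≠ 0 ∧ (g' • w).ord (ι f) = n)
    ↔ (0 < n ∧ ∃ f : F, f ≠ 0 ∧ w.ord (ι f) = n)
  constructor
  · rintro ⟨hn, f, hf, hfn⟩
    refine ⟨hn, g⁻¹ • f, by simpa using hf, ?_⟩
    rw [← hord]
    exact hfn
  · rintro ⟨hn, f, hf, hfn⟩
    refine ⟨hn, g • f, by simpa using hf, ?_⟩
    rw [← hord']
    exact hfn

/-- Inertia degrees along `ι` are invariant under an intertwined pair. -/
theorem inertiaDegAlong_smul_of_intertwines
    (h : SemilinearAut.IntertwinesAlong ι.toRingHom g g') (w : Place K F') :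
    (g' • w).inertiaDegAlong ι hι = w.inertiaDegAlong ι hι := by
  letI := algebraAlong ι
  haveI := isScalarTower_along ι
  haveI := isIntegral_along ι hι
  show Module.finrank ((g' • w).restrict F).ResidueField (g' • w).ResidueField
    = Module.finrank (w.restrict F).ResidueField w.ResidueField
  symm
  have hmem : ∀ x : (w.restrict F).toValuationSubring,
      g • (x : F) ∈ ((g' • w).restrict F).toValuationSubring := by
    intro x
    show ι (g • (x : F)) ∈ (g' • w.toValuationSubring : ValuationSubring F')
    have h1 : ι (g • (x : F)) = g' • ι (x : F) := (h (x : F)).symm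
    rw [h1]
    exact ValuationSubring.smul_mem_pointwise_smul g' _ _ x.2
  have hmem' : ∀ y : ((g' • w).restrict F).toValuationSubring,
      g⁻¹ • (y : F) ∈ (w.restrict F).toValuationSubring := by
    intro y
    show ι (g⁻¹ • (y : F)) ∈ w.toValuationSubring
    have h1 : ι (g⁻¹ • (y : F)) = g'⁻¹ • ι (y : F) := (h.inv (y : F)).symm
    rw [h1]
    exact ValuationSubring.mem_pointwise_smul_iff_inv_smul_mem.mp y.2
  let e₁ : (w.restrict F).toValuationSubring ≃+* ((g' • w).restrict F).toValuationSubring :=
    { toFun := fun x => ⟨g • (x : F), hmem x⟩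
      invFun := fun y => ⟨g⁻¹ • (y : F), hmem' y⟩
      left_inv := fun x => by ext; simp
      right_inv := fun y => by ext; simp
      map_mul' := fun x y =>
        Subtype.ext (map_mul (SemilinearAut.toRingAut g) (x : F) (y : F))
      map_add' := fun x y =>
        Subtype.ext (map_add (SemilinearAut.toRingAut g) (x : F) (y : F)) }
  let i : (w.restrict F).ResidueField ≃+* ((g' • w).restrict F).ResidueField :=
    IsLocalRing.ResidueField.mapEquiv e₁
  let j : w.ResidueField ≃+* (g' • w).ResidueField := SemilinearAut.smulResidueRingEquiv g' w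
  refine Algebra.finrank_eq_of_equiv_equiv i j ?_
  apply RingHom.ext
  intro x
  obtain ⟨a, rfl⟩ := IsLocalRing.residue_surjective x
  show Place.restrictResidueMap F (g' • w) (IsLocalRing.ResidueField.mapEquiv e₁
      (IsLocalRing.residue _ a))
    = IsLocalRing.ResidueField.mapEquiv
        (SemilinearAut.smulValuationSubringEquiv g' w.toValuationSubring)
        (Place.restrictResidueMap F w (IsLocalRing.residue _ a))
  rw [IsLocalRing.ResidueField.mapEquiv_apply, IsLocalRing.ResidueField.map_residue,
    Place.restrictResidueMap_residue, Place.restrictResidueMap_residue,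
    IsLocalRing.ResidueField.mapEquiv_apply, IsLocalRing.ResidueField.map_residue]
  congr 1
  apply Subtype.ext
  show ι (g • (a : F)) = g' • ι (a : F)
  exact (h (a : F)).symm

/-- Pushforward of divisors along `ι` is equivariant for an intertwined pair. -/
theorem pushforwardAlong_smul_of_intertwines
    (h : SemilinearAut.IntertwinesAlong ι.toRingHom g g') (D : Divisor K F') :
    Divisor.pushforwardAlong ι hι (g' • D) = g • Divisor.pushforwardAlong ι hι D := by
  induction D using Finsupp.induction with
  | zero => rw [smul_zero, map_zero, smul_zero]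
  | single_add w n D _ _ ih =>
    rw [smul_add, map_add, map_add, smul_add, ih, SemilinearAut.smul_single,
      Divisor.pushforwardAlong_single, Divisor.pushforwardAlong_single,
      SemilinearAut.smul_single, restrictAlong_smul_of_intertwines ι hι h,
      inertiaDegAlong_smul_of_intertwines ι hι h]

/-- Pullback of divisors along `ι` is equivariant for an intertwined pair. -/
theorem pullbackAlong_smul_of_intertwines [HasPrincipalDivisors K F']
    (h : SemilinearAut.IntertwinesAlong ι.toRingHom g g') (D : Divisor K F) :
    Divisor.pullbackAlong ι hι (g • D) = g' • Divisor.pullbackAlong ι hι D := by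
  ext w
  rw [Divisor.pullbackAlong_apply, SemilinearAut.divisor_smul_apply,
    SemilinearAut.divisor_smul_apply, Divisor.pullbackAlong_apply,
    restrictAlong_smul_of_intertwines ι hι h.inv,
    ramificationIndexAlong_smul_of_intertwines ι h.inv]

end Equivariance

section Correspondence

variable {K F F' : Type*} [Field K] [Field F] [Field F'] [Algebra K F] [Algebra K F']
variable [HasPrincipalDivisors K F']
variable (φ ψ : F →ₐ[K] F') (hφ : φ.toRingHom.IsIntegral) (hψ : ψ.toRingHom.IsIntegral)
variable {g : SemilinearAut K F} {g' : SemilinearAut K F'}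

/-- The correspondence `ψ_* φ^*` on divisors commutes with a pair of semilinear automorphisms
intertwined by `φ` and by `ψ`. -/
theorem correspondence_smul_of_intertwines
    (h₁ : SemilinearAut.IntertwinesAlong φ.toRingHom g g')
    (h₂ : SemilinearAut.IntertwinesAlong ψ.toRingHom g g') (D : Divisor K F) :
    Divisor.correspondence φ ψ hφ hψ (g • D) = g • Divisor.correspondence φ ψ hφ hψ D := by
  rw [Divisor.correspondence_apply, Divisor.correspondence_apply,
    pullbackAlong_smul_of_intertwines φ hφ h₁, pushforwardAlong_smul_of_intertwines ψ hψ h₂]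

/-- The correspondence `ψ_* φ^*` on `Pic⁰` commutes with a pair of semilinear automorphisms
intertwined by `φ` and by `ψ`. -/
theorem pic0_correspondence_smul_of_intertwines
    (hFI : FundamentalIdentityAlong K φ hφ)
    (hfin : FiniteAlong K ψ) (hN : NormFormulaAlong K ψ hfin)
    (h₁ : SemilinearAut.IntertwinesAlong φ.toRingHom g g')
    (h₂ : SemilinearAut.IntertwinesAlong ψ.toRingHom g g') (x : Pic0 K F) :
    Pic0.correspondence φ ψ hφ hψ hFI hfin hN (g • x)
      = g • Pic0.correspondence φ ψ hφ hψ hFI hfin hN x := by
  obtain ⟨D, rfl⟩ := Pic0.mk_surjective x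
  rw [SemilinearAut.pic0_smul_mk, Pic0.correspondence_mk, Pic0.correspondence_mk,
    SemilinearAut.pic0_smul_mk]
  refine congrArg Pic0.mk (Subtype.ext ?_)
  rw [Pic0.coe_degZeroCorrespondence, SemilinearAut.coe_degZeroSMulHom,
    SemilinearAut.coe_degZeroSMulHom, Pic0.coe_degZeroCorrespondence]
  exact correspondence_smul_of_intertwines φ ψ hφ hψ h₁ h₂ (D : Divisor K F)

end Correspondence

end Fermat.Agent.H49
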