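/-
P-ES / ES-C (helper49), row 308 "GEN-FF": places of a finite extension `F'/F` of function fields
lying over a place `v` of `F` versus the nonzero primes of the integral closure `S` of the
valuation ring `R = O_v` in `F'`.

Abstract setting: `S` is any model of the integral closure of `R` in `F'` (`IsIntegralClosure`),
assumed to be a Dedekind domain with fraction field `F'` (automatic for finite separable `F'/F`).
-/
import Fermat.Agent.H49.PlacePrime
import Fermat.Prelude.Def_AlgebraicCurve_DivisorPushPull

set_option autoImplicit false
set_option maxSynthPendingDepth 3

noncomputable section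

namespace Fermat.Agent.H49

open AlgebraicCurve IsDedekindDomain

section FiberPrimes

variable {K F F' : Type*} [Field K] [Field F] [Field F'] [Algebra K F] [Algebra K F']
  [Algebra F F'] [IsScalarTower K F F'] [Algebra.IsIntegral F F']
  (v : Place K F)
  (S : Type*) [CommRing S] [Algebra v.toValuationSubring S] [Algebra S F']
  [IsScalarTower v.toValuationSubring S F']

omit [Algebra (↥v.toValuationSubring) S] [IsScalarTower (↥v.toValuationSubring) S F'] in
/-- The valuation ring of a place over `v` contains the integral closure of `O_v`. -/
theorem algebraMap_mem_of_restrict_eq [IsIntegralClosure S v.toValuationSubring F']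
    {w : Place K F'} (hw : w.restrict F = v) (s : S) :
    algebraMap S F' s ∈ w.toValuationSubring := by
  have hR : ∀ r : v.toValuationSubring,
      algebraMap v.toValuationSubring F' r ∈ w.toValuationSubring := by
    intro r
    have h1 : (r : F) ∈ (w.restrict F).toValuationSubring := by rw [hw]; exact r.2
    exact h1
  let φ : v.toValuationSubring →+* w.toValuationSubring :=
    (algebraMap v.toValuationSubring F').codRestrict w.toValuationSubring.toSubring hR
  letI : Algebra v.toValuationSubring w.toValuationSubring := φ.toAlgebra
  haveI : IsScalarTower v.toValuationSubring w.toValuationSubring F' :=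
    IsScalarTower.of_algebraMap_eq fun r => rfl
  have hs : IsIntegral v.toValuationSubring (algebraMap S F' s) :=
    (IsIntegralClosure.isIntegral_iff (A := S)).mpr ⟨s, rfl⟩
  have hs' : IsIntegral w.toValuationSubring (algebraMap S F' s) := hs.tower_top
  obtain ⟨y, hy⟩ := IsIntegrallyClosed.isIntegral_iff.mp hs'
  exact hy ▸ y.2

/-- A place whose valuation ring contains the integral closure of `O_v` lies over `v`. -/
theorem restrict_eq_of_forall_algebraMap_mem {w : Place K F'}
    (h : ∀ s : S, algebraMap S F' s ∈ w.toValuationSubring) : w.restrict F = v := by
  refine (place_ext_of_le v (w.restrict F) ?_).symm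
  intro x hx
  have h1 := h (algebraMap v.toValuationSubring S ⟨x, hx⟩)
  rw [← IsScalarTower.algebraMap_apply v.toValuationSubring S F'] at h1
  exact h1

variable [IsDedekindDomain S] [IsFractionRing S F'] [Algebra K S] [IsScalarTower K S F']

/-- The place attached to a nonzero prime of the integral closure of `O_v` lies over `v`. -/
theorem restrict_ofHeightOneSpectrum (P : HeightOneSpectrum S) :
    (Place.ofHeightOneSpectrum (K := K) (F := F') P).restrict F = v :=
  restrict_eq_of_forall_algebraMap_mem v S
    (fun s => algebraMap_mem_ofHeightOneSpectrum (K := K) (F := F') P s)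

omit [Algebra (↥v.toValuationSubring) S] [IsScalarTower (↥v.toValuationSubring) S F'] in
/-- Every place over `v` comes from a nonzero prime of the integral closure of `O_v`. -/
theorem exists_heightOneSpectrum_of_restrict_eq [IsIntegralClosure S v.toValuationSubring F']
    {w : Place K F'} (hw : w.restrict F = v) :
    ∃ P : HeightOneSpectrum S, Place.ofHeightOneSpectrum (K := K) (F := F') P = w :=
  exists_heightOneSpectrum_of_le w (algebraMap_mem_of_restrict_eq v S hw)

end FiberPrimes

section LiesOver

variable {K F : Type*} [Field K] [Field F] [Algebra K F] (v : Place K F)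
  (S : Type*) [CommRing S] [IsDedekindDomain S] [Algebra v.toValuationSubring S]
  [Algebra.IsIntegral v.toValuationSubring S]

/-- Nonzero primes of the integral closure lie over the maximal ideal of `O_v`. -/
theorem liesOver_maximalIdeal (P : HeightOneSpectrum S) :
    P.asIdeal.LiesOver (IsLocalRing.maximalIdeal v.toValuationSubring) := by
  have hprime : (P.asIdeal.under v.toValuationSubring).IsPrime :=
    Ideal.comap_isPrime _ _
  have hne : P.asIdeal.under v.toValuationSubring ≠ ⊥ := by
    intro h0
    exact P.ne_bot (Ideal.eq_bot_of_comap_eq_bot h0)
  have hmax : (P.asIdeal.under v.toValuationSubring).IsMaximal := hprime.isMaximal hne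
  exact ⟨(IsLocalRing.eq_maximalIdeal hmax).symm⟩

end LiesOver

end Fermat.Agent.H49
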