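/-
P-ES / ES-C (helper49), row 308 "GEN-FF", part 1: the fundamental identity
`∑_{w | v} e(w|v) f(w|v) = [F' : F]` of the prelude (`AlgebraicCurve.SumRamificationInertia`,
hence `AlgebraicCurve.FundamentalIdentity`) for EVERY finite separable extension `F'/F` of fields
over `K` (no hypothesis on `K`), from Mathlib's `Ideal.sum_ramification_inertia_eq_finrank`
applied to the valuation ring of `v` and its integral closure in `F'`.
-/
import Fermat.Agent.H49.ES.FiberPrimes
import Fermat.Agent.H23.PlaceBasic

set_option autoImplicit false
set_option maxSynthPendingDepth 3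

noncomputable section

namespace Fermat.Agent.H49

open AlgebraicCurve IsDedekindDomain

section Inj

variable {K F : Type*} [Field K] [Field F] [Algebra K F] (v : Place K F)
  (S : Type*) [CommRing S] [Algebra v.toValuationSubring S]

theorem algebraMap_valuationSubring_injective (F' : Type*) [Field F']
    [Algebra F F'] [Algebra S F'] [IsScalarTower v.toValuationSubring S F'] :
    Function.Injective (algebraMap v.toValuationSubring S) := by
  intro a b hab
  have h1 := congrArg (algebraMap S F') hab
  rw [← IsScalarTower.algebraMap_apply v.toValuationSubring S F',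
    ← IsScalarTower.algebraMap_apply v.toValuationSubring S F',
    IsScalarTower.algebraMap_apply v.toValuationSubring F F',
    IsScalarTower.algebraMap_apply v.toValuationSubring F F'] at h1
  exact Subtype.ext ((algebraMap F F').injective h1)

end Inj

section Residue

variable {K F' : Type*} [Field K] [Field F'] [Algebra K F']
  (S : Type*) [CommRing S] [Algebra S F']
  [IsDedekindDomain S] [IsFractionRing S F'] [Algebra K S] [IsScalarTower K S F']

/-- Elements of a prime `P` of `S` lie in the maximal ideal of the valuation ring of the place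
attached to `P`. -/
theorem ofHeightOneSpectrum_mem_maximalIdeal (P : HeightOneSpectrum S) (s : S)
    (hs : s ∈ P.asIdeal) :
    (⟨algebraMap S F' s, algebraMap_mem_ofHeightOneSpectrum (K := K) (F := F') P s⟩ :
      (Place.ofHeightOneSpectrum (K := K) (F := F') P).toValuationSubring)
      ∈ IsLocalRing.maximalIdeal
        (Place.ofHeightOneSpectrum (K := K) (F := F') P).toValuationSubring := by
  rw [Fermat.Agent.H23.mem_maximalIdeal_iff_ord]
  by_cases h0 : s = 0
  · left
    simp [h0]
  · right
    exact (ofHeightOneSpectrum_ord_pos_iff (K := K) (F := F') P h0).mpr hs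

/-- The residue field of the place attached to `P` is generated by `S`. -/
theorem ofHeightOneSpectrum_exists_sub_mem (P : HeightOneSpectrum S)
    (x : (Place.ofHeightOneSpectrum (K := K) (F := F') P).toValuationSubring) :
    ∃ s : S, x - ⟨algebraMap S F' s, algebraMap_mem_ofHeightOneSpectrum (K := K) (F := F') P s⟩
      ∈ IsLocalRing.maximalIdeal
        (Place.ofHeightOneSpectrum (K := K) (F := F') P).toValuationSubring := by
  have hx : P.valuation F' (x : F') ≤ 1 :=
    (mem_ofHeightOneSpectrum_iff (K := K) P (x : F')).mp x.2
  obtain ⟨n, d, hnd⟩ := HeightOneSpectrum.exists_primeCompl_mul_eq_of_integer (K := F') P _ hx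
  have hPmax : P.asIdeal.IsMaximal := P.isMaximal
  obtain ⟨y, i, hi, hyi⟩ := hPmax.exists_inv (x := (d : S)) d.2
  refine ⟨n * y, ?_⟩
  have hkey : x - ⟨algebraMap S F' (n * y),
        algebraMap_mem_ofHeightOneSpectrum (K := K) (F := F') P (n * y)⟩
      = x * ⟨algebraMap S F' i, algebraMap_mem_ofHeightOneSpectrum (K := K) (F := F') P i⟩ := by
    apply Subtype.ext
    show (x : F') - algebraMap S F' (n * y) = (x : F') * algebraMap S F' i
    have h1 : algebraMap S F' y * algebraMap S F' (d : S) + algebraMap S F' i = 1 := by
      rw [← map_mul, ← map_add, hyi, map_one]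
    rw [map_mul, ← hnd]
    linear_combination (-(x : F')) * h1
  rw [hkey]
  exact Ideal.mul_mem_left _ _ (ofHeightOneSpectrum_mem_maximalIdeal S P i hi)

end Residue

section Main

variable {K F F' : Type*} [Field K] [Field F] [Field F'] [Algebra K F] [Algebra K F']
  [Algebra F F'] [IsScalarTower K F F'] [Algebra.IsIntegral F F']
  (v : Place K F)
  (S : Type*) [CommRing S] [Algebra v.toValuationSubring S] [Algebra S F']
  [IsScalarTower v.toValuationSubring S F']

omit [Algebra.IsIntegral F F'] in
/-- Comparison of inertia degrees, abstract form: the residue field of `w` is `S / P`. -/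
theorem inertiaDeg_eq_of_residue [Algebra.IsIntegral F F'] (w : Place K F')
    (hw : w.restrict F = v) (P : Ideal S)
    [P.IsMaximal] [P.LiesOver (IsLocalRing.maximalIdeal v.toValuationSubring)]
    (hmem : ∀ s : S, algebraMap S F' s ∈ w.toValuationSubring)
    (hP : ∀ s : S, s ∈ P → (⟨algebraMap S F' s, hmem s⟩ : w.toValuationSubring)
      ∈ IsLocalRing.maximalIdeal w.toValuationSubring)
    (hsurj : ∀ x : w.toValuationSubring, ∃ s : S,
      x - ⟨algebraMap S F' s, hmem s⟩ ∈ IsLocalRing.maximalIdeal w.toValuationSubring) :
    w.inertiaDeg F = P.inertiaDeg v.toValuationSubring := by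
  subst hw
  rw [Ideal.inertiaDeg_eq_of_isMaximal
    (IsLocalRing.maximalIdeal (w.restrict F).toValuationSubring) P]
  unfold Place.inertiaDeg
  symm
  let ι : S →+* w.toValuationSubring :=
    (algebraMap S F').codRestrict w.toValuationSubring.toSubring hmem
  let ψ : S →+* w.ResidueField := (IsLocalRing.residue w.toValuationSubring).comp ι
  have hker : ∀ s ∈ P, ψ s = 0 := by
    intro s hs
    exact (IsLocalRing.residue_eq_zero_iff _).mpr (hP s hs)
  let j0 : S ⧸ P →+* w.ResidueField := Ideal.Quotient.lift P ψ hker
  letI : Field (S ⧸ P) := Ideal.Quotient.field P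
  have hinj : Function.Injective j0 := j0.injective
  have hsur : Function.Surjective j0 := by
    intro y
    obtain ⟨x, rfl⟩ := IsLocalRing.residue_surjective y
    obtain ⟨s, hs⟩ := hsurj x
    refine ⟨Ideal.Quotient.mk P s, ?_⟩
    have h1 : j0 (Ideal.Quotient.mk P s) = IsLocalRing.residue _ (ι s) := rfl
    rw [h1]
    symm
    rw [← sub_eq_zero, ← map_sub]
    exact (IsLocalRing.residue_eq_zero_iff _).mpr hs
  let j : S ⧸ P ≃+* w.ResidueField := RingEquiv.ofBijective j0 ⟨hinj, hsur⟩
  let i : ((w.restrict F).toValuationSubring ⧸
      IsLocalRing.maximalIdeal (w.restrict F).toValuationSubring)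
        ≃+* (w.restrict F).ResidueField := RingEquiv.refl _
  refine Algebra.finrank_eq_of_equiv_equiv i j ?_
  apply Ideal.Quotient.ringHom_ext
  ext r
  show algebraMap (w.restrict F).ResidueField w.ResidueField (IsLocalRing.residue _ r)
    = j0 (algebraMap ((w.restrict F).toValuationSubring ⧸
      IsLocalRing.maximalIdeal (w.restrict F).toValuationSubring) (S ⧸ P)
        (Ideal.Quotient.mk (IsLocalRing.maximalIdeal (w.restrict F).toValuationSubring) r))
  rw [Ideal.Quotient.algebraMap_mk_of_liesOver]
  show Place.restrictResidueMap F w (IsLocalRing.residue _ r) = IsLocalRing.residue _ (ι _)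
  rw [Place.restrictResidueMap_residue]
  congr 1
  apply Subtype.ext
  show algebraMap F F' (r : F) = algebraMap S F' (algebraMap _ S r)
  rw [← IsScalarTower.algebraMap_apply (w.restrict F).toValuationSubring S F',
    IsScalarTower.algebraMap_apply (w.restrict F).toValuationSubring F F']
  rfl

variable [IsDedekindDomain S] [IsFractionRing S F'] [Algebra K S] [IsScalarTower K S F']
  [IsIntegralClosure S v.toValuationSubring F']

/-- The ramification index of the prelude (minimal positive order of an element of `F`) is the
ramification index of Mathlib. -/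
theorem ramificationIndex_ofHeightOneSpectrum (P : HeightOneSpectrum S) :
    (Place.ofHeightOneSpectrum (K := K) (F := F') P).ramificationIndex F
      = P.asIdeal.ramificationIdx v.toValuationSubring := by
  have : Algebra.IsIntegral v.toValuationSubring S :=
    IsIntegralClosure.isIntegral_algebra v.toValuationSubring F'
  have := liesOver_maximalIdeal v S P
  obtain ⟨ϖ, hϖ⟩ := IsDiscreteValuationRing.exists_irreducible v.toValuationSubring
  have hϖ0 : ϖ ≠ 0 := hϖ.ne_zero
  have hv1 : v.ord (ϖ : F) = 1 := v.ord_coe_irreducible hϖ
  set w : Place K F' := Place.ofHeightOneSpectrum (K := K) (F := F') P with hwdef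
  have hw : w.restrict F = v := restrict_ofHeightOneSpectrum v S P
  have h1 : w.ord (algebraMap F F' (ϖ : F)) = (w.ramificationIndex F : ℤ) := by
    rw [w.ord_restrict (ϖ : F), hw, hv1, mul_one]
  have hs0 : algebraMap v.toValuationSubring S ϖ ≠ 0 := by
    intro h0
    exact hϖ0 (algebraMap_valuationSubring_injective v S F' (h0.trans (map_zero _).symm))
  have halg : algebraMap F F' (ϖ : F)
      = algebraMap S F' (algebraMap v.toValuationSubring S ϖ) := by
    rw [← IsScalarTower.algebraMap_apply v.toValuationSubring S F',
      IsScalarTower.algebraMap_apply v.toValuationSubring F F']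
    rfl
  have hF0 : algebraMap F F' (ϖ : F) ≠ 0 := by
    rw [halg]
    intro h0
    exact hs0 ((IsFractionRing.injective S F') (h0.trans (map_zero _).symm))
  have h2 : w.ord (algebraMap F F' (ϖ : F))
      = -WithZero.log (P.valuation F' (algebraMap F F' (ϖ : F))) :=
    ofHeightOneSpectrum_ord (K := K) P hF0
  have hmax : IsLocalRing.maximalIdeal v.toValuationSubring = Ideal.span {ϖ} :=
    hϖ.maximalIdeal_eq
  have hmap : (IsLocalRing.maximalIdeal v.toValuationSubring).map
      (algebraMap v.toValuationSubring S)
        = Ideal.span {algebraMap v.toValuationSubring S ϖ} := by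
    rw [hmax, Ideal.map_span, Set.image_singleton]
  have hne : (IsLocalRing.maximalIdeal v.toValuationSubring).map
      (algebraMap v.toValuationSubring S) ≠ ⊥ := by
    rw [hmap]
    simpa [Ideal.span_singleton_eq_bot] using hs0
  have h3 := Ideal.IsDedekindDomain.ramificationIdx_eq_multiplicity
    (IsLocalRing.maximalIdeal v.toValuationSubring) P.asIdeal hne
  have h4 : -WithZero.log (P.valuation F' (algebraMap F F' (ϖ : F)))
      = (P.asIdeal.ramificationIdx v.toValuationSubring : ℤ) := by
    rw [halg, HeightOneSpectrum.valuation_of_algebraMap,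
      HeightOneSpectrum.intValuation_eq_exp_neg_multiplicity P hs0, WithZero.log_exp, neg_neg,
      ← hmap, ← h3]
  have := h1.symm.trans (h2.trans h4)
  exact_mod_cast this

/-- The inertia degree of the prelude is the inertia degree of Mathlib. -/
theorem inertiaDeg_ofHeightOneSpectrum (P : HeightOneSpectrum S) :
    (Place.ofHeightOneSpectrum (K := K) (F := F') P).inertiaDeg F
      = P.asIdeal.inertiaDeg v.toValuationSubring := by
  have : Algebra.IsIntegral v.toValuationSubring S :=
    IsIntegralClosure.isIntegral_algebra v.toValuationSubring F'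
  have := liesOver_maximalIdeal v S P
  have : P.asIdeal.IsMaximal := P.isMaximal
  exact inertiaDeg_eq_of_residue v S _ (restrict_ofHeightOneSpectrum v S P) P.asIdeal
    (fun s => algebraMap_mem_ofHeightOneSpectrum (K := K) (F := F') P s)
    (fun s hs => ofHeightOneSpectrum_mem_maximalIdeal S P s hs)
    (fun x => ofHeightOneSpectrum_exists_sub_mem S P x)

end Main

section Sum

variable {K F F' : Type*} [Field K] [Field F] [Field F'] [Algebra K F] [Algebra K F']
  [Algebra F F'] [IsScalarTower K F F'] [Algebra.IsIntegral F F']

/-- **Fundamental identity, abstract form**: `∑_{w | v} e_w f_w = [F' : F]`. -/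
theorem sum_ramificationIndex_mul_inertiaDeg_of_isIntegralClosure
    (v : Place K F) (S : Type*) [CommRing S] [Algebra v.toValuationSubring S] [Algebra S F']
    [IsScalarTower v.toValuationSubring S F'] [IsDedekindDomain S] [IsFractionRing S F']
    [Algebra K S] [IsScalarTower K S F'] [IsIntegralClosure S v.toValuationSubring F']
    [FiniteDimensional F F'] [Algebra.IsSeparable F F'] [HasPrincipalDivisors K F'] :
    ∑ w ∈ v.fiber F', (w.ramificationIndex F : ℤ) * (w.inertiaDeg F : ℤ)
      = (Module.finrank F F' : ℤ) := by
  classical
  have hint : Algebra.IsIntegral v.toValuationSubring S :=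
    IsIntegralClosure.isIntegral_algebra v.toValuationSubring F'
  have hfin : Module.Finite v.toValuationSubring S :=
    IsIntegralClosure.finite v.toValuationSubring F F' S
  have hfree : Module.Free v.toValuationSubring S :=
    IsIntegralClosure.module_free v.toValuationSubring F F' S
  have hrank : Module.finrank v.toValuationSubring S = Module.finrank F F' :=
    IsIntegralClosure.rank v.toValuationSubring F F' S
  have hinj := algebraMap_valuationSubring_injective v S F'
  letI : Fintype ((IsLocalRing.maximalIdeal v.toValuationSubring).primesOver S) :=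
    (Algebra.QuasiFinite.finite_primesOver
      (IsLocalRing.maximalIdeal v.toValuationSubring)).fintype
  have hsum := Ideal.sum_ramification_inertia_eq_finrank
    (IsLocalRing.maximalIdeal v.toValuationSubring) S
  have hne : ∀ q : (IsLocalRing.maximalIdeal v.toValuationSubring).primesOver S,
      q.1 ≠ ⊥ := by
    intro q hq
    have h1 : q.1.LiesOver (IsLocalRing.maximalIdeal v.toValuationSubring) := q.2.2
    have h2 : IsLocalRing.maximalIdeal v.toValuationSubring = q.1.under _ := h1.over
    rw [hq] at h2
    have h3 : (⊥ : Ideal S).under v.toValuationSubring = ⊥ := by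
      rw [Ideal.under_def, Ideal.comap_bot_of_injective _ hinj]
    rw [h3] at h2
    exact IsDiscreteValuationRing.not_a_field v.toValuationSubring h2
  rw [← hrank, ← hsum]
  push_cast
  symm
  refine Finset.sum_bij
    (fun q _ => Place.ofHeightOneSpectrum (K := K) (F := F') ⟨q.1, q.2.1, hne q⟩) ?_ ?_ ?_ ?_
  · intro q _
    exact Place.mem_fiber.mpr (restrict_ofHeightOneSpectrum v S _)
  · intro q₁ _ q₂ _ h
    have h1 := ofHeightOneSpectrum_injective (K := K) (F := F') h
    exact Subtype.ext (congrArg HeightOneSpectrum.asIdeal h1)
  · intro w hw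
    obtain ⟨P, hP⟩ := exists_heightOneSpectrum_of_restrict_eq v S (Place.mem_fiber.mp hw)
    exact ⟨⟨P.asIdeal, P.isPrime, liesOver_maximalIdeal v S P⟩, Finset.mem_univ _, hP⟩
  · intro q _
    rw [ramificationIndex_ofHeightOneSpectrum v S, inertiaDeg_ofHeightOneSpectrum v S]

end Sum

end Fermat.Agent.H49
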