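/-
P-ES / ES-C (helper49), row 308 "GEN-FF", part 2: the norm formula
`ord_v (N_{F'/F} f) = ∑_{w | v} f(w|v) · ord_w f` (prelude: `Divisor.PushforwardNormFormula`)
for a finite (separable) extension `F'/F` of fields of characteristic zero over `K`, at a place
`v` of `F`, in the abstract setting of `Fermat.Agent.H49.ES.SumRamInertia`
(`S` = a model of the integral closure of `O_v` in `F'`).  Uses Mathlib's relative ideal norm
(`Ideal.relNorm_singleton`, `Ideal.relNorm_eq_pow_of_isMaximal`).
-/
import Fermat.Agent.H49.ES.SumRamInertia

set_option autoImplicit false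
set_option maxSynthPendingDepth 3

noncomputable section

namespace Fermat.Agent.H49

open AlgebraicCurve IsDedekindDomain

section OrdPow

variable {K F : Type*} [Field K] [Field F] [Algebra K F] (v : Place K F)

/-- In the valuation ring of a place, a generator of the `k`-th power of the maximal ideal has
order `k`. -/
theorem ord_eq_of_span_eq_pow (r : v.toValuationSubring) (k : ℕ)
    (h : Ideal.span {r} = IsLocalRing.maximalIdeal v.toValuationSubring ^ k) :
    v.ord (r : F) = k := by
  obtain ⟨ϖ, hϖ⟩ := IsDiscreteValuationRing.exists_irreducible v.toValuationSubring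
  have hmax : IsLocalRing.maximalIdeal v.toValuationSubring = Ideal.span {ϖ} :=
    hϖ.maximalIdeal_eq
  rw [hmax, Ideal.span_singleton_pow, Ideal.span_singleton_eq_span_singleton] at h
  obtain ⟨u, hu⟩ := h.symm
  have hr : (r : F) = ((u : v.toValuationSubring) : F) * (ϖ : F) ^ k := by
    rw [← hu, mul_comm]
    push_cast
    ring
  have hϖ0 : (ϖ : F) ≠ 0 := by
    intro h0
    exact hϖ.ne_zero (Subtype.ext h0)
  have hu0 : ((u : v.toValuationSubring) : F) ≠ 0 := by
    intro h0
    exact u.ne_zero (Subtype.ext h0)
  rw [hr, v.ord_mul hu0 (pow_ne_zero _ hϖ0), v.ord_coe_unit, zero_add, ← zpow_natCast,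
    v.ord_zpow, v.ord_coe_irreducible hϖ, mul_one]

end OrdPow

section NormInt

variable {K F F' : Type*} [Field K] [Field F] [Field F'] [Algebra K F] [Algebra K F']
  [Algebra F F'] [IsScalarTower K F F'] [FiniteDimensional F F'] [Algebra.IsSeparable F F']
  [CharZero F]
  (v : Place K F)
  (S : Type*) [CommRing S] [Algebra v.toValuationSubring S] [Algebra S F']
  [IsScalarTower v.toValuationSubring S F']
  [IsDedekindDomain S] [IsFractionRing S F'] [Algebra K S] [IsScalarTower K S F']
  [IsIntegralClosure S v.toValuationSubring F']

/-- The order of an element of `S` at the place attached to `P` is the exponent of `P` in the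
factorization of the principal ideal. -/
theorem ofHeightOneSpectrum_ord_algebraMap (P : HeightOneSpectrum S) {s : S} (hs : s ≠ 0) :
    (Place.ofHeightOneSpectrum (K := K) (F := F') P).ord (algebraMap S F' s)
      = ((Associates.mk P.asIdeal).count (Associates.mk (Ideal.span {s} : Ideal S)).factors : ℤ) := by
  have hF0 : algebraMap S F' s ≠ 0 := by
    intro h0
    exact hs ((IsFractionRing.injective S F') (h0.trans (map_zero _).symm))
  rw [ofHeightOneSpectrum_ord (K := K) P hF0, HeightOneSpectrum.valuation_of_algebraMap,
    HeightOneSpectrum.intValuation_if_neg P hs, WithZero.log_exp, neg_neg]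

omit [IsScalarTower K F F'] in
/-- **Norm formula, integral case.** -/
theorem sum_ord_mul_inertiaDeg_eq_ord_norm_of_integral [Fintype (HeightOneSpectrum S)]
    {s : S} (hs : s ≠ 0) :
    ∑ P : HeightOneSpectrum S,
        (Place.ofHeightOneSpectrum (K := K) (F := F') P).ord (algebraMap S F' s)
          * (P.asIdeal.inertiaDeg v.toValuationSubring : ℤ)
      = v.ord (Algebra.norm F (algebraMap S F' s)) := by
  classical
  have hint : Algebra.IsIntegral v.toValuationSubring S :=
    IsIntegralClosure.isIntegral_algebra v.toValuationSubring F'
  have hfin : Module.Finite v.toValuationSubring S :=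
    IsIntegralClosure.finite v.toValuationSubring F F' S
  have htf : Module.IsTorsionFree v.toValuationSubring S :=
    IsIntegralClosure.isTorsionFree v.toValuationSubring F'
  haveI : CharZero v.toValuationSubring := (algebraMap v.toValuationSubring F).charZero
  haveI : CharZero (FractionRing v.toValuationSubring) :=
    charZero_of_injective_algebraMap
      (IsFractionRing.injective v.toValuationSubring (FractionRing v.toValuationSubring))
  have hI : (Ideal.span {s} : Ideal S) ≠ 0 := by
    simpa [Ideal.span_singleton_eq_bot] using hs
  -- norm of the principal ideal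
  have h1 : Ideal.relNorm v.toValuationSubring (Ideal.span {s} : Ideal S)
      = Ideal.span {Algebra.intNorm v.toValuationSubring S s} :=
    Ideal.relNorm_singleton v.toValuationSubring s
  -- factorization
  have h2 : (Ideal.span {s} : Ideal S)
      = ∏ P : HeightOneSpectrum S, P.asIdeal ^
          (Associates.mk P.asIdeal).count (Associates.mk (Ideal.span {s} : Ideal S)).factors := by
    conv_lhs => rw [← Ideal.finprod_heightOneSpectrum_factorization hI]
    rw [finprod_eq_prod_of_fintype]
    rfl
  have h3 : ∀ P : HeightOneSpectrum S, Ideal.relNorm v.toValuationSubring P.asIdeal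
      = IsLocalRing.maximalIdeal v.toValuationSubring ^ P.asIdeal.inertiaDeg v.toValuationSubring := by
    intro P
    haveI := liesOver_maximalIdeal v S P
    haveI : P.asIdeal.IsMaximal := P.isMaximal
    exact Ideal.relNorm_eq_pow_of_isMaximal P.asIdeal
      (IsLocalRing.maximalIdeal v.toValuationSubring)
  have h4 : Ideal.span {Algebra.intNorm v.toValuationSubring S s}
      = IsLocalRing.maximalIdeal v.toValuationSubring ^
        (∑ P : HeightOneSpectrum S,
          (Associates.mk P.asIdeal).count (Associates.mk (Ideal.span {s} : Ideal S)).factors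
            * P.asIdeal.inertiaDeg v.toValuationSubring) := by
    rw [← h1]
    conv_lhs => rw [h2]
    rw [map_prod, ← Finset.prod_pow_eq_pow_sum]
    refine Finset.prod_congr rfl fun P _ => ?_
    rw [map_pow, h3 P, ← pow_mul, mul_comm]
  have h5 := ord_eq_of_span_eq_pow v _ _ h4
  have h6 : ((Algebra.intNorm v.toValuationSubring S s : v.toValuationSubring) : F)
      = Algebra.norm F (algebraMap S F' s) :=
    Algebra.algebraMap_intNorm (A := v.toValuationSubring) (K := F) (L := F') (B := S) s
  rw [← h6, h5]
  push_cast
  refine Finset.sum_congr rfl fun P _ => ?_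
  rw [ofHeightOneSpectrum_ord_algebraMap S P hs]

end NormInt

section NF

variable {K F F' : Type*} [Field K] [Field F] [Field F'] [Algebra K F] [Algebra K F']
  [Algebra F F'] [IsScalarTower K F F']

omit [Algebra K F'] [IsScalarTower K F F'] in
/-- The integral closure of a discrete valuation ring in a finite separable extension has
finitely many nonzero primes. -/
theorem finite_heightOneSpectrum_of_isIntegralClosure
    [FiniteDimensional F F'] [Algebra.IsSeparable F F']
    (v : Place K F) (S : Type*) [CommRing S] [Algebra v.toValuationSubring S] [Algebra S F']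
    [IsScalarTower v.toValuationSubring S F'] [IsDedekindDomain S]
    [IsIntegralClosure S v.toValuationSubring F'] : Finite (HeightOneSpectrum S) := by
  have hint : Algebra.IsIntegral v.toValuationSubring S :=
    IsIntegralClosure.isIntegral_algebra v.toValuationSubring F'
  have hfin : Module.Finite v.toValuationSubring S :=
    IsIntegralClosure.finite v.toValuationSubring F F' S
  have : Finite ((IsLocalRing.maximalIdeal v.toValuationSubring).primesOver S) :=
    Algebra.QuasiFinite.finite_primesOver (IsLocalRing.maximalIdeal v.toValuationSubring)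
  refine Finite.of_injective
    (fun P : HeightOneSpectrum S =>
      (⟨P.asIdeal, P.isPrime, liesOver_maximalIdeal v S P⟩ :
        (IsLocalRing.maximalIdeal v.toValuationSubring).primesOver S)) ?_
  intro P Q h
  exact HeightOneSpectrum.ext (congrArg Subtype.val h)

/-- The pushforward of a divisor at `v` as a sum over the primes of the integral closure. -/
theorem pushforward_apply_eq_sum_heightOneSpectrum [Algebra.IsIntegral F F']
    (v : Place K F) (S : Type*) [CommRing S] [Algebra v.toValuationSubring S] [Algebra S F']
    [IsScalarTower v.toValuationSubring S F'] [IsDedekindDomain S] [IsFractionRing S F']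
    [Algebra K S] [IsScalarTower K S F'] [IsIntegralClosure S v.toValuationSubring F']
    [Fintype (HeightOneSpectrum S)] (D : Divisor K F') :
    Divisor.pushforward F D v = ∑ P : HeightOneSpectrum S,
      D (Place.ofHeightOneSpectrum (K := K) (F := F') P)
        * (P.asIdeal.inertiaDeg v.toValuationSubring : ℤ) := by
  classical
  set g : HeightOneSpectrum S → Place K F' :=
    fun P => Place.ofHeightOneSpectrum (K := K) (F := F') P with hg
  have hginj : Function.Injective g := ofHeightOneSpectrum_injective (K := K) (F := F')
  set T : Finset (Place K F') := Finset.univ.image g with hT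
  have hTmem : ∀ w : Place K F', w ∈ T ↔ w.restrict F = v := by
    intro w
    constructor
    · intro hw
      obtain ⟨P, -, rfl⟩ := Finset.mem_image.mp hw
      exact restrict_ofHeightOneSpectrum v S P
    · intro hw
      obtain ⟨P, hP⟩ := exists_heightOneSpectrum_of_restrict_eq v S hw
      exact Finset.mem_image.mpr ⟨P, Finset.mem_univ _, hP⟩
  rw [Divisor.pushforward_apply]
  have e1 : ∑ w ∈ D.support, (if w.restrict F = v then D w * (w.inertiaDeg F : ℤ) else 0)
      = ∑ w ∈ D.support ∪ T,
          (if w.restrict F = v then D w * (w.inertiaDeg F : ℤ) else 0) := by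
    refine Finset.sum_subset Finset.subset_union_left ?_
    intro w _ hw
    have : D w = 0 := by simpa using hw
    simp [this]
  have e2 : ∑ w ∈ T, (if w.restrict F = v then D w * (w.inertiaDeg F : ℤ) else 0)
      = ∑ w ∈ D.support ∪ T,
          (if w.restrict F = v then D w * (w.inertiaDeg F : ℤ) else 0) := by
    refine Finset.sum_subset Finset.subset_union_right ?_
    intro w _ hw
    have : ¬ w.restrict F = v := fun h => hw ((hTmem w).mpr h)
    simp [this]
  rw [e1, ← e2, hT, Finset.sum_image (fun a _ b _ h => hginj h)]
  refine Finset.sum_congr rfl fun P _ => ?_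
  rw [if_pos (restrict_ofHeightOneSpectrum v S P), inertiaDeg_ofHeightOneSpectrum v S P]

/-- **Norm formula at `v`, abstract form.** -/
theorem pushforward_eq_ord_norm_of_isIntegralClosure
    [FiniteDimensional F F'] [Algebra.IsSeparable F F'] [CharZero F]
    (v : Place K F) (S : Type*) [CommRing S] [Algebra v.toValuationSubring S] [Algebra S F']
    [IsScalarTower v.toValuationSubring S F'] [IsDedekindDomain S] [IsFractionRing S F']
    [Algebra K S] [IsScalarTower K S F'] [IsIntegralClosure S v.toValuationSubring F']
    (f : F') (hf : f ≠ 0) (D : Divisor K F') (hD : ∀ w, D w = w.ord f) :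
    Divisor.pushforward F D v = v.ord (Algebra.norm F f) := by
  classical
  haveI : Finite (HeightOneSpectrum S) := finite_heightOneSpectrum_of_isIntegralClosure (F' := F') v S
  letI : Fintype (HeightOneSpectrum S) := Fintype.ofFinite _
  rw [pushforward_apply_eq_sum_heightOneSpectrum v S D]
  obtain ⟨a, b, hb, rfl⟩ := IsFractionRing.div_surjective (A := S) f
  have hb0 : b ≠ 0 := nonZeroDivisors.ne_zero hb
  have hbF : algebraMap S F' b ≠ 0 := by
    intro h0
    exact hb0 ((IsFractionRing.injective S F') (h0.trans (map_zero _).symm))
  have ha0 : a ≠ 0 := by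
    rintro rfl
    simp at hf
  have haF : algebraMap S F' a ≠ 0 := by
    intro h0
    exact ha0 ((IsFractionRing.injective S F') (h0.trans (map_zero _).symm))
  have hNa : Algebra.norm F (algebraMap S F' a) ≠ 0 := Algebra.norm_ne_zero_iff.mpr haF
  have hNb : Algebra.norm F (algebraMap S F' b) ≠ 0 := Algebra.norm_ne_zero_iff.mpr hbF
  have hord : ∀ w : Place K F', w.ord (algebraMap S F' a / algebraMap S F' b)
      = w.ord (algebraMap S F' a) - w.ord (algebraMap S F' b) := by
    intro w
    rw [div_eq_mul_inv, w.ord_mul haF (inv_ne_zero hbF), w.ord_inv]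
    ring
  have hN : Algebra.norm F (algebraMap S F' a / algebraMap S F' b)
      = Algebra.norm F (algebraMap S F' a) * (Algebra.norm F (algebraMap S F' b))⁻¹ := by
    rw [eq_mul_inv_iff_mul_eq₀ hNb, ← map_mul, div_mul_cancel₀ _ hbF]
  rw [hN, v.ord_mul hNa (inv_ne_zero hNb), v.ord_inv,
    ← sum_ord_mul_inertiaDeg_eq_ord_norm_of_integral v S ha0,
    ← sum_ord_mul_inertiaDeg_eq_ord_norm_of_integral v S hb0, ← sub_eq_add_neg,
    ← Finset.sum_sub_distrib]
  refine Finset.sum_congr rfl fun P _ => ?_
  rw [hD, hord]
  ring

end NF

end Fermat.Agent.H49
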