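/-
P-ES / ES-C (helper49), row 308 "GEN-FF": the general function-field inputs of the prelude's
`ModularCurve.HeckeInputsAlong`.

For EVERY finite separable extension `F'/F` of fields over a field `K` (no hypothesis on `K`,
no "function field" hypothesis):

* `sumRamificationInertia : SumRamificationInertia K F F'`  (`∑_{w | v} e_w f_w = [F' : F]`),
  hence `fundamentalIdentity : FundamentalIdentity K F F'`;
* in characteristic zero `pushforwardNormFormula : Divisor.PushforwardNormFormula K F F'`
  (`ord_v (N_{F'/F} f) = ∑_{w | v} f_w · ord_w f`);
* the `…Along` forms for an algebra homomorphism `φ : F →ₐ[K] F'`: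
  `fundamentalIdentityAlong_of_finite`, `normFormulaAlong_of_finite`.
-/
import Fermat.Agent.H49.ES.NormFormula
import Fermat.Prelude.Def_AlgebraicCurve_Correspondence

set_option autoImplicit false
set_option maxSynthPendingDepth 3

noncomputable section

namespace Fermat.Agent.H49

open AlgebraicCurve IsDedekindDomain

section Inst

variable (K F F' : Type*) [Field K] [Field F] [Field F'] [Algebra K F] [Algebra K F']
  [Algebra F F'] [IsScalarTower K F F']

/-- The `K`-algebra structure of the integral closure of the valuation ring of `v` in `F'`. -/
@[reducible] def integralClosureAlgebra (v : Place K F) :
    Algebra K (integralClosure v.toValuationSubring F') :=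
  ((algebraMap v.toValuationSubring (integralClosure v.toValuationSubring F')).comp
    (algebraMap K v.toValuationSubring)).toAlgebra

theorem integralClosure_isScalarTower (v : Place K F) :
    letI := integralClosureAlgebra K F F' v
    IsScalarTower K (integralClosure v.toValuationSubring F') F' := by
  letI := integralClosureAlgebra K F F' v
  refine IsScalarTower.of_algebraMap_eq fun k => ?_
  show algebraMap K F' k = algebraMap (integralClosure v.toValuationSubring F') F'
    (algebraMap v.toValuationSubring (integralClosure v.toValuationSubring F')
      (algebraMap K v.toValuationSubring k))
  rw [← IsScalarTower.algebraMap_apply v.toValuationSubring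
      (integralClosure v.toValuationSubring F') F',
    IsScalarTower.algebraMap_apply v.toValuationSubring F F',
    ← IsScalarTower.algebraMap_apply K v.toValuationSubring F,
    ← IsScalarTower.algebraMap_apply K F F']

variable [FiniteDimensional F F'] [Algebra.IsSeparable F F']

/-- **Fundamental identity** `∑_{w | v} e_w f_w = [F' : F]` for every finite separable
extension. -/
theorem sumRamificationInertia [HasPrincipalDivisors K F'] : SumRamificationInertia K F F' :=
  ⟨fun v => by
    letI := integralClosureAlgebra K F F' v
    haveI := integralClosure_isScalarTower K F F' v
    haveI : IsDedekindDomain (integralClosure v.toValuationSubring F') :=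
      integralClosure.isDedekindDomain v.toValuationSubring F F'
    haveI : IsFractionRing (integralClosure v.toValuationSubring F') F' :=
      IsIntegralClosure.isFractionRing_of_finite_extension v.toValuationSubring F F' _
    exact sum_ramificationIndex_mul_inertiaDeg_of_isIntegralClosure v
      (integralClosure v.toValuationSubring F')⟩

/-- **Fundamental identity** in the form used by the prelude's divisor pullback. -/
theorem fundamentalIdentity [HasPrincipalDivisors K F'] : FundamentalIdentity K F F' :=
  haveI := sumRamificationInertia K F F'
  inferInstance

/-- **Norm formula** `ord_v (N f) = ∑_{w | v} f_w ord_w f` for every finite extension in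
characteristic zero. -/
theorem pushforwardNormFormula [CharZero F] : Divisor.PushforwardNormFormula K F F' := by
  intro f hf D hD v
  letI := integralClosureAlgebra K F F' v
  haveI := integralClosure_isScalarTower K F F' v
  haveI : IsDedekindDomain (integralClosure v.toValuationSubring F') :=
    integralClosure.isDedekindDomain v.toValuationSubring F F'
  haveI : IsFractionRing (integralClosure v.toValuationSubring F') F' :=
    IsIntegralClosure.isFractionRing_of_finite_extension v.toValuationSubring F F' _
  exact pushforward_eq_ord_norm_of_isIntegralClosure v
    (integralClosure v.toValuationSubring F') f hf D hD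

end Inst

section Along

variable {K F F' : Type*} [Field K] [Field F] [Field F'] [Algebra K F] [Algebra K F']

/-- `FundamentalIdentityAlong` for every finite homomorphism of fields of characteristic zero. -/
theorem fundamentalIdentityAlong_of_finite [CharZero F] (φ : F →ₐ[K] F')
    (hφ : φ.toRingHom.IsIntegral) [HasPrincipalDivisors K F'] (hfin : FiniteAlong K φ) :
    FundamentalIdentityAlong K φ hφ := by
  letI := algebraAlong φ
  haveI := isScalarTower_along φ
  haveI := isIntegral_along φ hφ
  haveI : Module.Finite F F' := hfin
  exact fundamentalIdentity K F F'

/-- `NormFormulaAlong` for every finite homomorphism of fields of characteristic zero. -/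
theorem normFormulaAlong_of_finite [CharZero F] (φ : F →ₐ[K] F') (hfin : FiniteAlong K φ) :
    NormFormulaAlong K φ hfin := by
  letI := algebraAlong φ
  haveI := isScalarTower_along φ
  haveI : Module.Finite F F' := hfin
  exact pushforwardNormFormula K F F'

end Along

end Fermat.Agent.H49
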